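/-
S15lib / RedH / Frob (helper6).  Project E, block REDH, the case `q = ℓ`.

`T_ℓ` preserves the kernel of the reduction at a place `A ∣ ℓ`, `ℓ ∤ N`: the Eichler–Shimura relation
on `Pic⁰` (`S37lib.ES.hES`, on main) reads `Fr (red (T_ℓ w)) = Fr (Fr (red w)) + ℓ • red w`, and
`Fr` is injective (it is the action of an automorphism of the residue function field).
-/
import Mathlib
import Fermat.Agent.S37lib.ES.SupportMod
import Fermat.Agent.S37lib.B3.Inst

set_option autoImplicit false
set_option linter.style.haveILetI false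
set_option linter.unusedSectionVars false

noncomputable section

namespace Fermat.Agent.S15lib.RedH

open AlgebraicCurve ModularCurve Fermat.Agent.S18lib Fermat.Agent.S37lib

local notation "Qb" => AlgebraicClosure ℚ

variable (N : ℕ) [NeZero N] (A : ValuationSubring Qb) {ℓ : ℕ} [Fact ℓ.Prime]

/-- the Frobenius endomorphism of `JZeroC k N` is injective -/
theorem Fr_injective (hA : A.LiesOverPrime ℓ) : Function.Injective (C0.Fr A N hA) := by
  rw [ES.Fr_eq_frobHom]
  intro x y hxy
  rw [ES.frobHom_apply, ES.frobHom_apply] at hxy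
  exact smul_left_cancel _ hxy

/-- **(REDH), `q = ℓ`**: `T_ℓ` preserves the kernel of the reduction at `A ∣ ℓ`. -/
theorem reductionModL_heckeOperatorBar_self (hℓ : ℓ.Prime) (hℓN : ¬ ℓ ∣ N)
    (hA : A.LiesOverPrime ℓ) (w : JZero N) (hw : reductionModL A N w = 0) :
    reductionModL A N (heckeOperatorBar N ⟨ℓ, hℓ⟩ w) = 0 := by
  have h : ReductionInputsModL A N := B3.reductionInputsModL N A hℓN hA
  have hes := ES.hES N A hℓN hA h hℓ w
  rw [hw, map_zero, map_zero, smul_zero, add_zero] at hes
  exact Fr_injective N A hA (by rw [hes, map_zero])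

end Fermat.Agent.S15lib.RedH
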