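/-
S15lib / RedH / Beta (helper6).  Project E, block REDH.

The second degeneracy map `β : f(q) ↦ f(q^m)` commutes with the Gauss reduction: for
`x ∈ O_N` (Gauss ring of level `N`, `ℓ ∤ N m`), `β x ∈ O_{N m}` and `red (β x) = β̄ (red x)`.
-/
import Mathlib
import Fermat.Agent.S18lib.V.GaussU.Datum
import Fermat.Agent.S44lib.Q4.HeckeK

set_option autoImplicit false
set_option linter.style.haveILetI false
set_option linter.unusedSectionVars false

noncomputable section

namespace Fermat.Agent.S15lib.RedH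

open AlgebraicCurve ModularCurve Fermat.Agent.S18lib Fermat.Agent.S37lib Fermat.Agent.S44lib

local notation "Qb" => AlgebraicClosure ℚ

variable (N m : ℕ) [NeZero N] [NeZero m] (A : ValuationSubring Qb)

/-- `β` on integral modular functions: `y(q) ↦ y(q^m)` -/
def betaInt (a : V.IntRing N A) : V.IntRing (N * m) A :=
  ⟨qExpand A m (a : LaurentSeries A), by
    constructor
    · show V.toL A (qExpand A m (a : LaurentSeries A)) ∈ modularFunctionFieldBar (N * m)
      rw [V.toL, coeffMap_qExpand]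
      exact (heckeBetaBar Qb N m (V.elemL a)).2
    · show V.toK A (qExpand A m (a : LaurentSeries A)) ∈
        modularFunctionFieldFullC (IsLocalRing.ResidueField A) (N * m)
      rw [V.toK, coeffMap_qExpand]
      exact (Q4.betaK A N m (V.elemK a)).2⟩

theorem elemL_betaInt (a : V.IntRing N A) :
    V.elemL (betaInt N m A a) = heckeBetaBar Qb N m (V.elemL a) := by
  apply Subtype.ext
  show V.toL A (qExpand A m (a : LaurentSeries A)) = qExpand Qb m (V.toL A (a : LaurentSeries A))
  rw [V.toL, coeffMap_qExpand]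

theorem elemK_betaInt (a : V.IntRing N A) :
    V.elemK (betaInt N m A a) = Q4.betaK A N m (V.elemK a) := by
  apply Subtype.ext
  show V.toK A (qExpand A m (a : LaurentSeries A)) =
    qExpand (IsLocalRing.ResidueField A) m (V.toK A (a : LaurentSeries A))
  rw [V.toK, coeffMap_qExpand]

variable {N A}

theorem isRep_beta {x : FBar N} {a b : V.IntRing N A} (h : V.IsRep x a b) :
    V.IsRep (heckeBetaBar Qb N m x) (betaInt N m A a) (betaInt N m A b) := by
  refine ⟨?_, ?_⟩
  · rw [elemK_betaInt]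
    exact (map_ne_zero _).mpr h.1
  · rw [elemL_betaInt, elemL_betaInt, ← map_mul, h.2]

variable {ℓ : ℕ} [Fact ℓ.Prime]

/-- `β` maps the Gauss ring of level `N` into the Gauss ring of level `N m` -/
theorem beta_mem_O (hℓN : ¬ ℓ ∣ N) (hℓNm : ¬ ℓ ∣ N * m) (hA : A.LiesOverPrime ℓ) {x : FBar N}
    (hx : x ∈ (V.gaussDatum N A hℓN hA).O) :
    heckeBetaBar Qb N m x ∈ (V.gaussDatum (N * m) A hℓNm hA).O := by
  obtain ⟨a, b, hab⟩ := hx
  exact ⟨_, _, isRep_beta m hab⟩

/-- `red (β x) = β̄ (red x)` -/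
theorem redF_beta (hℓN : ¬ ℓ ∣ N) (hℓNm : ¬ ℓ ∣ N * m) (hA : A.LiesOverPrime ℓ) {x : FBar N}
    (hx : x ∈ (V.gaussDatum N A hℓN hA).O) :
    (V.gaussDatum (N * m) A hℓNm hA).redF (heckeBetaBar Qb N m x) =
      Q4.betaK A N m ((V.gaussDatum N A hℓN hA).redF x) := by
  obtain ⟨a, b, hab⟩ := hx
  rw [V.gaussDatum_redF_apply (N * m) A hℓNm hA (isRep_beta m hab),
    V.gaussDatum_redF_apply N A hℓN hA hab, elemK_betaInt, elemK_betaInt, map_div₀]

end Fermat.Agent.S15lib.RedH
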