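/-
S15lib / RedH / Norm (helper6).  Project E, block REDH.

**Reduction of the Hecke norm at a prime `ℓ ∤ N m`**: for `x` in the Gauss ring of level `N`,
`N_α (β x)` lies in the Gauss ring of level `N` and

  `red (N_α (β x)) = N_ᾱ (β̄ (red x))`.

(helper1's abstract `B3.norm_mem_and_redF` for the tower `FBar N ⊆ FBar (N m)` + `RedH.Beta`.)
-/
import Mathlib
import Fermat.Agent.S15lib.RedH.Beta
import Fermat.Agent.S37lib.B3.Inst
import Fermat.Agent.S37lib.B3.Descent

set_option autoImplicit false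
set_option linter.style.haveILetI false
set_option linter.unusedSectionVars false

noncomputable section

namespace Fermat.Agent.S15lib.RedH

open AlgebraicCurve ModularCurve Fermat.Agent.S18lib Fermat.Agent.S37lib Fermat.Agent.S44lib

local notation "Qb" => AlgebraicClosure ℚ

variable {N m : ℕ} [NeZero N] [NeZero m] {A : ValuationSubring Qb} {ℓ : ℕ} [Fact ℓ.Prime]

local notation "kA" => IsLocalRing.ResidueField A

/-- norms along `α` of Gauss-integral functions of level `N m` are Gauss-integral of level `N` and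
reduce to the norm along `ᾱ` of the reduction -/
theorem normAlong_alpha_mem_and_redF (hℓN : ¬ ℓ ∣ N) (hℓNm : ¬ ℓ ∣ N * m)
    (hA : A.LiesOverPrime ℓ) {f' : FBar (N * m)}
    (hf' : f' ∈ (V.gaussDatum (N * m) A hℓNm hA).O) :
    ES.normAlong (heckeAlphaBar Qb N m) f' ∈ (V.gaussDatum N A hℓN hA).O ∧
      (V.gaussDatum N A hℓN hA).redF (ES.normAlong (heckeAlphaBar Qb N m) f') =
        ES.normAlong (Q4.alphaK A N m) ((V.gaussDatum (N * m) A hℓNm hA).redF f') := by
  have hNN' : N ∣ N * m := Dvd.intro m rfl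
  obtain ⟨D', hD'⟩ := B3.exists_redDatum (N * m) A hℓNm hA
  letI := V.levelAlgebraL (N := N) (N' := N * m) hNN'
  letI := V.levelModuleL (N := N) (N' := N * m) hNN'
  letI := V.levelAlgebraK (N := N) (N' := N * m) A hNN'
  letI := V.levelModuleK (N := N) (N' := N * m) A hNN'
  haveI : IsScalarTower Qb (FBar N) (FBar (N * m)) := V.isScalarTower_levelL hNN'
  haveI : IsScalarTower kA (FRes A N) (FRes A (N * m)) := V.isScalarTower_levelK A hNN'
  haveI : FiniteDimensional (FBar N) (FBar (N * m)) := V.finiteDimensional_levelL hNN'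
  haveI : FiniteDimensional (FRes A N) (FRes A (N * m)) :=
    V.finiteDimensional_levelK A hNN' hℓNm hA
  have hDO : D'.O = (V.gaussDatum (N * m) A hℓNm hA).O := by rw [← hD']; rfl
  have hDred : ∀ x, D'.redF x = (V.gaussDatum (N * m) A hℓNm hA).redF x := by
    intro x; rw [← hD']; rfl
  have key := B3.norm_mem_and_redF (V.gaussDatum N A hℓN hA) D'
    (fun x => by rw [hDO]; exact V.level_hO_gauss A hNN' hℓNm hA x)
    (fun x _ => by rw [hDred]; exact V.level_hred_gauss A hNN' hℓNm hA x)
    (V.level_hdeg' A hNN' hℓNm hA) (f' := f') (by rw [hDO]; exact hf')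
  rw [hDred] at key
  exact key

/-- **(R), good reduction**: `red (N_α (β x)) = N_ᾱ (β̄ (red x))` -/
theorem redF_normAlong_beta (hℓN : ¬ ℓ ∣ N) (hℓNm : ¬ ℓ ∣ N * m)
    (hA : A.LiesOverPrime ℓ) {x : FBar N} (hx : x ∈ (V.gaussDatum N A hℓN hA).O) :
    ES.normAlong (heckeAlphaBar Qb N m) (heckeBetaBar Qb N m x) ∈ (V.gaussDatum N A hℓN hA).O ∧
      (V.gaussDatum N A hℓN hA).redF
          (ES.normAlong (heckeAlphaBar Qb N m) (heckeBetaBar Qb N m x)) =
        ES.normAlong (Q4.alphaK A N m) (Q4.betaK A N m ((V.gaussDatum N A hℓN hA).redF x)) := by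
  have h := normAlong_alpha_mem_and_redF hℓN hℓNm hA (beta_mem_O m hℓN hℓNm hA hx)
  rw [redF_beta m hℓN hℓNm hA hx] at h
  exact h

end Fermat.Agent.S15lib.RedH
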