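/-
S15lib / RedH / Defect (helper6).  Project E, block REDH.

**The Hecke defect** `Φ := r_* ∘ T_m − T̄_m ∘ r_* : Div (FBar N) →+ Div (FRes A N)` (`ℓ ∤ N m`,
`T_m = α_* β^*` over `ℚ̄`, `T̄_m = ᾱ_* β̄^*` = helper2's `Q4.heckeDivK` over the residue field)
vanishes on principal divisors:  `Φ (div f) = div (red N_α β f) − div (N_ᾱ β̄ (red f)) = 0`.
-/
import Mathlib
import Fermat.Agent.S15lib.RedH.Norm
import Fermat.Agent.S37lib.ES.Principal
import Fermat.Agent.S37lib.HeckeInst.Final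

set_option autoImplicit false
set_option linter.style.haveILetI false
set_option linter.unusedSectionVars false

noncomputable section

namespace Fermat.Agent.S15lib.RedH

open AlgebraicCurve ModularCurve Fermat.Agent.S18lib Fermat.Agent.S37lib Fermat.Agent.S44lib

local notation "Qb" => AlgebraicClosure ℚ

variable (N m : ℕ) [NeZero N] [NeZero m] (A : ValuationSubring Qb)

local notation "kA" => IsLocalRing.ResidueField A

/-- the Hecke correspondence `T_m = α_* β^*` on `Div (FBar N)` with the inputs of `HeckeInst` -/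
def heckeDivL : Divisor Qb (FBar N) →+ Divisor Qb (FBar N) :=
  haveI := HeckeInst.hasPrincipalDivisors_FB (N * m)
  Divisor.correspondence (heckeBetaBar Qb N m) (heckeAlphaBar Qb N m)
    (HeckeInst.heckeBetaBarIntegral N m) (HeckeInst.heckeAlphaBarIntegral N m)

variable [HasPrincipalDivisors (IsLocalRing.ResidueField A) (FRes A (N * m))]

/-- **the Hecke defect** `r_* T_m − T̄_m r_*` of a reduction datum of level `N` -/
def heckeDefect (D : RedDatum A (FBar N) (FRes A N)) :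
    Divisor Qb (FBar N) →+ Divisor kA (FRes A N) :=
  (Finsupp.mapDomain.addMonoidHom D.r).comp (heckeDivL N m) -
    (Q4.heckeDivK A N m).comp (Finsupp.mapDomain.addMonoidHom D.r)

theorem heckeDefect_apply (D : RedDatum A (FBar N) (FRes A N)) (E : Divisor Qb (FBar N)) :
    heckeDefect N m A D E =
      Finsupp.mapDomain D.r (heckeDivL N m E) - Q4.heckeDivK A N m (Finsupp.mapDomain D.r E) :=
  rfl

theorem heckeDefect_eq_zero_iff (D : RedDatum A (FBar N) (FRes A N)) (E : Divisor Qb (FBar N)) :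
    heckeDefect N m A D E = 0 ↔
      Finsupp.mapDomain D.r (heckeDivL N m E) = Q4.heckeDivK A N m (Finsupp.mapDomain D.r E) := by
  rw [heckeDefect_apply, sub_eq_zero]

variable {N m A} {ℓ : ℕ} [Fact ℓ.Prime]

/-- `T̄_m (div φ) = div (N_ᾱ (β̄ φ))`, `divOf` form -/
theorem heckeDivK_divOf (hA : A.LiesOverPrime ℓ) (hℓNm : ¬ ℓ ∣ N * m)
    [HasPrincipalDivisors kA (FRes A N)]
    (hdeg : ∀ w : Place kA (FRes A (N * m)), w.deg = 1) {φ : FRes A N} (hφ : φ ≠ 0) :
    Q4.heckeDivK A N m (divOf (K := kA) φ) =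
      divOf (K := kA) (ES.normAlong (Q4.alphaK A N m) (Q4.betaK A N m φ)) := by
  ext v
  rw [Q4.heckeDivK_apply_eq_ord A N m hA hℓNm hdeg hφ (fun P => divOf_apply hφ P) v,
    divOf_apply']

/-- **the defect vanishes on principal divisors** -/
theorem heckeDefect_principal (hℓN : ¬ ℓ ∣ N) (hℓNm : ¬ ℓ ∣ N * m) (hA : A.LiesOverPrime ℓ)
    [HasPrincipalDivisors Qb (FBar N)] [HasPrincipalDivisors kA (FRes A N)]
    (hdeg : ∀ w : Place kA (FRes A (N * m)), w.deg = 1)
    (D : RedDatum A (FBar N) (FRes A N)) (hD : D.toGaussDatum = V.gaussDatum N A hℓN hA)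
    (f : FBar N) (hf : f ≠ 0) (Df : Divisor Qb (FBar N)) (hDf : ∀ P, Df P = P.ord f) :
    heckeDefect N m A D Df = 0 := by
  haveI := HeckeInst.hasPrincipalDivisors_FB (N * m)
  have hredF : ∀ x : FBar N, D.redF x = (V.gaussDatum N A hℓN hA).redF x := by
    intro x
    rw [← hD, RedDatum.toGaussDatum_redF]
  have hO : D.O = (V.gaussDatum N A hℓN hA).O := by rw [← hD]; rfl
  -- normalise `f`
  obtain ⟨c, hc, hne⟩ := D.exists_const_mul_redF_ne_zero hf
  set f₁ : FBar N := algebraMap Qb (FBar N) c * f with hf₁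
  have hf₁0 : f₁ ≠ 0 := mul_ne_zero ((map_ne_zero _).2 hc) hf
  have hf₁O : f₁ ∈ (V.gaussDatum N A hℓN hA).O := by
    rw [← hO]; exact D.mem_of_redF_ne_zero hne
  have hDf' : Df = divOf (K := Qb) f₁ := by
    rw [ES.eq_divOf hDf, hf₁, divOf_algebraMap_mul hc]
  obtain ⟨hNO, hNred⟩ := redF_normAlong_beta (m := m) hℓN hℓNm hA hf₁O
  -- the reduction of the norm is non-zero
  have hφ0 : (V.gaussDatum N A hℓN hA).redF f₁ ≠ 0 := by rw [← hredF]; exact hne
  have hβφ0 : Q4.betaK A N m ((V.gaussDatum N A hℓN hA).redF f₁) ≠ 0 := (map_ne_zero _).mpr hφ0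
  have hN0 : ES.normAlong (Q4.alphaK A N m)
      (Q4.betaK A N m ((V.gaussDatum N A hℓN hA).redF f₁)) ≠ 0 :=
    ES.normAlong_ne_zero _ (Q4.finiteAlong_alphaK A N m) hβφ0
  have hNred0 : D.redF (ES.normAlong (heckeAlphaBar Qb N m) (heckeBetaBar Qb N m f₁)) ≠ 0 := by
    rw [hredF, hNred]; exact hN0
  rw [heckeDefect_eq_zero_iff, hDf', heckeDivL,
    ES.correspondence_divOf (heckeBetaBar Qb N m) (heckeAlphaBar Qb N m)
      (HeckeInst.heckeBetaBarIntegral N m) (HeckeInst.heckeAlphaBarIntegral N m)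
      (HeckeInst.finiteAlong_alpha N m) (HeckeInst.normFormulaAlong_alpha N m) hf₁0,
    D.mapDomain_divOf hNred0, D.mapDomain_divOf hne, hredF, hredF, hNred,
    heckeDivK_divOf hA hℓNm hdeg hφ0]

end Fermat.Agent.S15lib.RedH
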