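/-
S15lib / RedH / Support (helper6).  Project E, block REDH.

**Support control for the Hecke defect** `Φ = r_* T_q − T̄_q r_*` (`q` prime, `ℓ ∤ N q`): the data
`B, hB, hdisj, hex` of lead's `Glue.rigidity`.

`jv Q : Option k` is the value of `j̄` at the place `Q` of `FRes A N`.  Two values are *related* if
both are `none` (cusps) or `Φ̄_q(a, b) = 0 = Φ̄_q(b, a)` (`Φ̄_q` the reduction of the modular
polynomial).  Every place of `supp Φ(P)` has a `j̄`-value related to `jv (r P)`:
* over `ℚ̄`: a place `W` of level `N q` gives `Φ_q(j(W|β), j(W|α)) = 0` (helper4's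
  `ConjNorm.phiVal_of_place`), which reduces;
* over `k`: the same for the places of `FRes A (N q)` (helper2's `Q4.biEval₂_betaK_alphaK`).
-/
import Mathlib
import Fermat.Agent.S15lib.RedH.Defect
import Fermat.Agent.S37lib.ES.SupportMod
import Fermat.Agent.S44lib.Q4.RowSum

set_option autoImplicit false
set_option linter.style.haveILetI false
set_option linter.unusedSectionVars false

noncomputable section

namespace Fermat.Agent.S15lib.RedH

open AlgebraicCurve ModularCurve Fermat.Agent.S18lib Fermat.Agent.S37lib Fermat.Agent.S44lib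
open Fermat.Agent.S28lib Polynomial

local notation "Qb" => AlgebraicClosure ℚ

variable (A : ValuationSubring Qb) (q : ℕ) [Fact q.Prime]

local notation "kA" => IsLocalRing.ResidueField A

/-! ### the reduced modular polynomial on values -/

/-- `Φ̄_q(a, b)` for `a, b` in the residue field -/
def phiRes (a b : kA) : kA := ConjNorm.biEval₂ (Gink.iotaA A) (phiZ q) a b

/-- reduction of a modular relation between integral values -/
theorem phiRes_residue [NeZero q] {a b : A} (h : ConjNorm.phiVal q (a : Qb) (b : Qb) = 0) :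
    phiRes A q (IsLocalRing.residue A a) (IsLocalRing.residue A b) = 0 := by
  have h1 : ConjNorm.biEval₂ (Gink.intToA A) (phiZ q) a b = 0 := by
    apply Subtype.val_injective
    have := ConjNorm.map_biEval₂ A.subtype (Gink.intToA A) (phiZ q) a b
    rw [ConjNorm.subtype_comp_intToA] at this
    exact this.trans h
  have h2 := ConjNorm.map_biEval₂ (IsLocalRing.residue A) (Gink.intToA A) (phiZ q) a b
  rw [h1, map_zero] at h2
  exact h2.symm

/-- for fixed `b` the equation `Φ̄_q(a, b) = 0` has finitely many solutions `a` -/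
theorem finite_phiRes_left (b : kA) : {a : kA | phiRes A q a b = 0}.Finite := by
  classical
  set P : kA[X] := (phiZ q).map (Polynomial.eval₂RingHom (Gink.iotaA A) b) with hP
  have hmonic : P.Monic := (phiZ_monic q).map _
  have hP0 : P ≠ 0 := hmonic.ne_zero
  refine (P.roots.toFinset.finite_toSet).subset ?_
  intro a ha
  rw [Finset.mem_coe, Multiset.mem_toFinset, Polynomial.mem_roots hP0, Polynomial.IsRoot.def, hP,
    Polynomial.eval_map]
  exact ha

/-- two values of `j̄` are related: both cusps, or a zero of `Φ̄_q` in both orders -/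
def Rel : Option kA → Option kA → Prop
  | none, none => True
  | some a, some b => phiRes A q a b = 0 ∧ phiRes A q b a = 0
  | _, _ => False

theorem rel_comm {v v' : Option kA} : Rel A q v v' ↔ Rel A q v' v := by
  cases v with
  | none =>
    cases v' with
    | none => exact Iff.rfl
    | some b => exact Iff.rfl
  | some a =>
    cases v' with
    | none => exact Iff.rfl
    | some b => exact and_comm

theorem rel_none_none : Rel A q none none := trivial

theorem rel_some_some {a b : kA} (h1 : phiRes A q a b = 0) (h2 : phiRes A q b a = 0) :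
    Rel A q (some a) (some b) := ⟨h1, h2⟩

/-- for a fixed value `v` finitely many values are related to it -/
theorem finite_rel_left (v : Option kA) : {v' : Option kA | Rel A q v' v}.Finite := by
  cases v with
  | none =>
    refine (Set.finite_singleton (none : Option kA)).subset ?_
    intro v' hv'
    cases v' with
    | none => rfl
    | some a => exact hv'.elim
  | some b =>
    refine ((finite_phiRes_left A q b).image some).subset ?_
    intro v' hv'
    cases v' with
    | none => exact hv'.elim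
    | some a => exact ⟨a, hv'.1, rfl⟩

/-! ### the characteristic-zero side -/

section CharZero

variable (N : ℕ) [NeZero N] {ℓ : ℕ} [Fact ℓ.Prime] [NeZero q]
variable (hℓN : ¬ ℓ ∣ N) (hA : A.LiesOverPrime ℓ) (h : ReductionInputsModL A N)

theorem jBeta_sub' (a : Qb) :
    heckeBetaBar Qb N q (Gin0.jF N - algebraMap Qb (FBar N) a) =
      ConjNorm.jBeta N q - algebraMap Qb (FBar (N * q)) a := by
  rw [map_sub, AlgHom.commutes]
  rfl

theorem jAlpha_sub' (a : Qb) :
    heckeAlphaBar Qb N q (Gin0.jF N - algebraMap Qb (FBar N) a) =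
      ConjNorm.jAlpha N q - algebraMap Qb (FBar (N * q)) a := by
  rw [map_sub, AlgHom.commutes]
  rfl

include hℓN hA in
/-- **the modular relation at a place of level `N q`, after reduction** -/
theorem rel_jv_restrict [HasPrincipalDivisors Qb (FBar N)] [HasPrincipalDivisors kA (FRes A N)]
    (hdegpos : ∀ Q : Place kA (FRes A N), 0 < Q.deg) (W : Place Qb (FBar (N * q))) :
    Rel A q
      (ES.jv N A (placeReductionModL h (W.restrictAlong (heckeAlphaBar Qb N q)
        (HeckeInst.heckeAlphaBarIntegral N q))))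
      (ES.jv N A (placeReductionModL h (W.restrictAlong (heckeBetaBar Qb N q)
        (HeckeInst.heckeBetaBarIntegral N q)))) := by
  set β := heckeBetaBar Qb N q with hβdef
  set α := heckeAlphaBar Qb N q with hαdef
  set hβ := HeckeInst.heckeBetaBarIntegral N q
  set hα := HeckeInst.heckeAlphaBarIntegral N q
  set P := W.restrictAlong β hβ with hP
  set P'' := W.restrictAlong α hα with hP''
  have hjB : β (Gin0.jF N) = ConjNorm.jBeta N q := rfl
  have hjA : α (Gin0.jF N) = ConjNorm.jAlpha N q := rfl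
  by_cases hpole : P.ord (Gin0.jF N) < 0
  · -- `P` is a pole of `j`, hence so is `P''`
    have h1 : W.ord (ConjNorm.jBeta N q) < 0 := by
      rw [← hjB]; exact (ES.ord_map_neg_iff β hβ W _).mpr hpole
    have h2 : W.ord (ConjNorm.jAlpha N q) < 0 := (ConjNorm.ord_jBeta_neg_iff W).mp h1
    have h3 : P''.ord (Gin0.jF N) < 0 := by
      rw [← hjA] at h2; exact (ES.ord_map_neg_iff α hα W _).mp h2
    rw [ES.jv_r_of_ord_neg N A hℓN hA h hdegpos hpole, ES.jv_r_of_ord_neg N A hℓN hA h hdegpos h3]
    exact rel_none_none A q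
  · push Not at hpole
    have hpole'' : 0 ≤ P''.ord (Gin0.jF N) := by
      by_contra hneg
      push Not at hneg
      have h2 : W.ord (ConjNorm.jAlpha N q) < 0 := by
        rw [← hjA]; exact (ES.ord_map_neg_iff α hα W _).mpr hneg
      have h1 : W.ord (ConjNorm.jBeta N q) < 0 := (ConjNorm.ord_jBeta_neg_iff W).mpr h2
      rw [← hjB] at h1
      exact absurd ((ES.ord_map_neg_iff β hβ W _).mp h1) (not_lt.mpr hpole)
    obtain ⟨a, ha⟩ := B3.exists_value P (HeckeInst.deg_eq_one N P) hpole
    obtain ⟨b, hb⟩ := B3.exists_value P'' (HeckeInst.deg_eq_one N P'') hpole''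
    have ha' : 0 < P.ord (Gin0.jF N - algebraMap Qb (FBar N) a) :=
      ha.resolve_left (sub_ne_zero.mpr (ES.jF_ne_const N a))
    have hb' : 0 < P''.ord (Gin0.jF N - algebraMap Qb (FBar N) b) :=
      hb.resolve_left (sub_ne_zero.mpr (ES.jF_ne_const N b))
    have hWa : 0 < W.ord (ConjNorm.jBeta N q - algebraMap Qb (FBar (N * q)) a) := by
      rw [← jBeta_sub']; exact (ES.ord_map_pos_iff β hβ W _).mpr ha'
    have hWb : 0 < W.ord (ConjNorm.jAlpha N q - algebraMap Qb (FBar (N * q)) b) := by
      rw [← jAlpha_sub']; exact (ES.ord_map_pos_iff α hα W _).mpr hb'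
    obtain ⟨h1, h2⟩ := ConjNorm.phiVal_of_place W hWa hWb
    by_cases haA : a ∈ A
    · have hbA : b ∈ A := ConjNorm.mem_of_phiVal_eq_zero A q h2 haA
      have e1 := ES.jv_r_of_mem N A hℓN hA h hdegpos ⟨a, haA⟩ ha'
      have e2 := ES.jv_r_of_mem N A hℓN hA h hdegpos ⟨b, hbA⟩ hb'
      rw [e1, e2]
      exact rel_some_some A q (phiRes_residue A q (a := ⟨b, hbA⟩) (b := ⟨a, haA⟩) h2)
        (phiRes_residue A q (a := ⟨a, haA⟩) (b := ⟨b, hbA⟩) h1)
    · have hbA : b ∉ A := fun hb0 => haA (ConjNorm.mem_of_phiVal_eq_zero A q h1 hb0)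
      rw [ES.jv_r_of_not_mem N A hℓN hA h hdegpos haA ha',
        ES.jv_r_of_not_mem N A hℓN hA h hdegpos hbA hb']
      exact rel_none_none A q

end CharZero

/-! ### the residue side -/

section Residue

variable (N : ℕ) [NeZero N] {ℓ : ℕ} [Fact ℓ.Prime] [NeZero q]

theorem natCast_ne_zero_kRes (hA : A.LiesOverPrime ℓ) (hℓq : ℓ ≠ q) : ((q : ℕ) : kA) ≠ 0 := by
  haveI := Gink.charP_kRes A hA
  intro h0
  have h1 : ℓ ∣ q := (CharP.cast_eq_zero_iff kA ℓ q).mp h0
  have hq : q.Prime := Fact.out
  have hℓ : ℓ.Prime := Fact.out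
  rcases (Nat.dvd_prime hq).mp h1 with h | h
  · exact hℓ.ne_one h
  · exact hℓq h

theorem betaK_sub (a : kA) :
    Q4.betaK A N q (Gink.jK A N - algebraMap kA (FRes A N) a) =
      Q4.betaK A N q (Gink.jK A N) - algebraMap kA (FRes A (N * q)) a := by
  rw [map_sub, AlgHom.commutes]

theorem alphaK_sub (a : kA) :
    Q4.alphaK A N q (Gink.jK A N - algebraMap kA (FRes A N) a) =
      Q4.alphaK A N q (Gink.jK A N) - algebraMap kA (FRes A (N * q)) a := by
  rw [map_sub, AlgHom.commutes]

/-- **the modular relation at a place of `FRes A (N q)`** -/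
theorem rel_jv_restrictK (hA : A.LiesOverPrime ℓ) (hℓq : ℓ ≠ q)
    (hdeg : ∀ Q : Place kA (FRes A N), Q.deg = 1) (W : Place kA (FRes A (N * q))) :
    Rel A q
      (ES.jv N A (W.restrictAlong (Q4.alphaK A N q) (Q4.alphaK_integral A N q)))
      (ES.jv N A (W.restrictAlong (Q4.betaK A N q) (Q4.betaK_integral A N q))) := by
  have hqk := natCast_ne_zero_kRes A q hA hℓq
  set β := Q4.betaK A N q with hβdef
  set α := Q4.alphaK A N q with hαdef
  set hβ := Q4.betaK_integral A N q
  set hα := Q4.alphaK_integral A N q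
  set Q' := W.restrictAlong β hβ with hQ'
  set Q := W.restrictAlong α hα with hQ
  by_cases hpole : Q'.ord (Gink.jK A N) < 0
  · have h1 : W.ord (β (Gink.jK A N)) < 0 := (ES.ord_map_neg_iff β hβ W _).mpr hpole
    have h2 : β (Gink.jK A N) ∉ W.toValuationSubring := by
      rw [Fermat.Agent.ProgramR.FF.mem_iff_ord_nonneg]; exact not_le.mpr h1
    have h3 : α (Gink.jK A N) ∉ W.toValuationSubring := fun hm =>
      h2 ((Q4.betaK_jK_mem_iff hqk W).mpr hm)
    have h4 : W.ord (α (Gink.jK A N)) < 0 := by
      rw [Fermat.Agent.ProgramR.FF.mem_iff_ord_nonneg] at h3; exact not_le.mp h3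
    have h5 : Q.ord (Gink.jK A N) < 0 := (ES.ord_map_neg_iff α hα W _).mp h4
    rw [ES.jv, ES.jv, ES.valAt_eq_none_of_ord_neg hpole, ES.valAt_eq_none_of_ord_neg h5]
    exact rel_none_none A q
  · push Not at hpole
    have hpole' : 0 ≤ Q.ord (Gink.jK A N) := by
      by_contra hneg
      push Not at hneg
      have h4 : W.ord (α (Gink.jK A N)) < 0 := (ES.ord_map_neg_iff α hα W _).mpr hneg
      have h3 : α (Gink.jK A N) ∉ W.toValuationSubring := by
        rw [Fermat.Agent.ProgramR.FF.mem_iff_ord_nonneg]; exact not_le.mpr h4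
      have h2 : β (Gink.jK A N) ∉ W.toValuationSubring := fun hm =>
        h3 ((Q4.betaK_jK_mem_iff hqk W).mp hm)
      have h1 : W.ord (β (Gink.jK A N)) < 0 := by
        rw [Fermat.Agent.ProgramR.FF.mem_iff_ord_nonneg] at h2; exact not_le.mp h2
      exact absurd ((ES.ord_map_neg_iff β hβ W _).mp h1) (not_lt.mpr hpole)
    obtain ⟨a, ha⟩ := B3.exists_value Q' (hdeg Q') hpole
    obtain ⟨b, hb⟩ := B3.exists_value Q (hdeg Q) hpole'
    have ha' : 0 < Q'.ord (Gink.jK A N - algebraMap kA (FRes A N) a) :=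
      ha.resolve_left (sub_ne_zero.mpr (ES.jK_ne_const N A a))
    have hb' : 0 < Q.ord (Gink.jK A N - algebraMap kA (FRes A N) b) :=
      hb.resolve_left (sub_ne_zero.mpr (ES.jK_ne_const N A b))
    have hWa : 0 < W.ord (β (Gink.jK A N) - algebraMap kA (FRes A (N * q)) a) := by
      rw [← betaK_sub]; exact (ES.ord_map_pos_iff β hβ W _).mpr ha'
    have hWb : 0 < W.ord (α (Gink.jK A N) - algebraMap kA (FRes A (N * q)) b) := by
      rw [← alphaK_sub]; exact (ES.ord_map_pos_iff α hα W _).mpr hb'
    have e1 : ES.jv N A Q' = some a := ES.valAt_eq_some_iff.mpr ha'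
    have e2 : ES.jv N A Q = some b := ES.valAt_eq_some_iff.mpr hb'
    rw [e1, e2]
    refine rel_some_some A q ?_ ?_
    · exact ConjNorm.biEval₂_eq_zero_of_place W (Gink.iotaA A) (phiZ q) (Or.inr hWb) (Or.inr hWa)
        (Q4.biEval₂_alphaK_betaK hqk)
    · exact ConjNorm.biEval₂_eq_zero_of_place W (Gink.iotaA A) (phiZ q) (Or.inr hWa) (Or.inr hWb)
        (Q4.biEval₂_betaK_alphaK hqk)

end Residue

/-! ### the support of the defect -/

section SupportSec

variable (N : ℕ) [NeZero N] {ℓ : ℕ} [Fact ℓ.Prime] [NeZero q]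
variable (hℓN : ¬ ℓ ∣ N) (hA : A.LiesOverPrime ℓ) (h : ReductionInputsModL A N)

/-- the reduction datum of level `N` with place map `placeReductionModL h` -/
abbrev theDatum : RedDatum A (FBar N) (FRes A N) :=
  B3.datumOf N A hℓN hA (placeReductionModL h) (isPlaceReductionModL_placeReductionModL h)

variable [HasPrincipalDivisors (IsLocalRing.ResidueField A) (FRes A (N * q))]

/-- **support of the defect of a single place**: the `j̄`-values are related to `j̄ (r P)` -/
theorem rel_of_mem_support_heckeDefect (hℓq : ℓ ≠ q)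
    [HasPrincipalDivisors Qb (FBar N)] [HasPrincipalDivisors kA (FRes A N)]
    (hdeg : ∀ Q : Place kA (FRes A N), Q.deg = 1)
    {P : Place Qb (FBar N)} {Q : Place kA (FRes A N)}
    (hQ : Q ∈ (heckeDefect N q A (theDatum A N hℓN hA h) (Finsupp.single P 1)).support) :
    Rel A q (ES.jv N A Q) (ES.jv N A (placeReductionModL h P)) := by
  classical
  haveI := HeckeInst.hasPrincipalDivisors_FB (N * q)
  have hdegpos : ∀ Q : Place kA (FRes A N), 0 < Q.deg := fun Q => by rw [hdeg Q]; exact one_pos
  rw [heckeDefect_apply] at hQ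
  have hQ' := Finsupp.support_sub hQ
  rcases Finset.mem_union.mp hQ' with h1 | h1
  · -- the characteristic-zero side
    have h2 := Finsupp.mapDomain_support h1
    obtain ⟨P'', hP'', hr⟩ := Finset.mem_image.mp h2
    rw [heckeDivL] at hP''
    obtain ⟨W, hWP, hWP''⟩ := ES.exists_of_mem_support_correspondence_single
      (heckeBetaBar Qb N q) (heckeAlphaBar Qb N q) (HeckeInst.heckeBetaBarIntegral N q)
      (HeckeInst.heckeAlphaBarIntegral N q) hP''
    have hk := rel_jv_restrict A q N hℓN hA h hdegpos W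
    rw [hWP, hWP''] at hk
    rw [← hr]
    exact hk
  · -- the residue side
    rw [Finsupp.mapDomain_single] at h1
    obtain ⟨W, hWP, hWQ⟩ := ES.exists_of_mem_support_correspondence_single
      (Q4.betaK A N q) (Q4.alphaK A N q) (Q4.betaK_integral A N q)
      (Q4.alphaK_integral A N q) h1
    have hk := rel_jv_restrictK A q N hA hℓq hdeg W
    rw [hWP, hWQ] at hk
    exact hk

/-! ### the bad sets -/

omit [HasPrincipalDivisors (IsLocalRing.ResidueField A) (FRes A (N * q))] in
/-- the places whose `j̄`-value is related to a given value form a finite set -/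
theorem finite_relSet [HasPrincipalDivisors kA (FRes A N)]
    (hdeg : ∀ Q : Place kA (FRes A N), Q.deg = 1) (v : Option kA) :
    {Q' : Place kA (FRes A N) | Rel A q (ES.jv N A Q') v}.Finite := by
  have hfib := fun v' => ES.finite_valAt_fibre (x := Gink.jK A N) (ES.jK_ne_const N A) hdeg v'
  refine ((finite_rel_left A q v).biUnion (fun v' _ => hfib v')).subset ?_
  intro Q' hQ'
  rw [Set.mem_iUnion₂]
  exact ⟨ES.jv N A Q', hQ', rfl⟩

omit [HasPrincipalDivisors (IsLocalRing.ResidueField A) (FRes A (N * q))] in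
theorem finite_badSet [HasPrincipalDivisors kA (FRes A N)]
    (hdeg : ∀ Q : Place kA (FRes A N), Q.deg = 1) (Q : Place kA (FRes A N)) :
    {Q' : Place kA (FRes A N) | Q' = Q ∨ ∃ Q'' : Place kA (FRes A N),
      Rel A q (ES.jv N A Q'') (ES.jv N A Q) ∧ Rel A q (ES.jv N A Q') (ES.jv N A Q'')}.Finite := by
  have h1 := (finite_relSet A q N hdeg (ES.jv N A Q)).biUnion
    (fun Q'' _ => finite_relSet A q N hdeg (ES.jv N A Q''))
  refine ((Set.finite_singleton Q).union h1).subset ?_
  rintro Q' (rfl | ⟨Q'', h2, h3⟩)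
  · exact Or.inl rfl
  · right
    rw [Set.mem_iUnion₂]
    exact ⟨Q'', h2, h3⟩

/-- the bad set of a place `Q` of `FRes A N`: `Q` and the places two modular steps away -/
def badSet [HasPrincipalDivisors kA (FRes A N)]
    (hdeg : ∀ Q : Place kA (FRes A N), Q.deg = 1) (Q : Place kA (FRes A N)) :
    Finset (Place kA (FRes A N)) :=
  (finite_badSet A q N hdeg Q).toFinset

omit [HasPrincipalDivisors (IsLocalRing.ResidueField A) (FRes A (N * q))] in
theorem mem_badSet [HasPrincipalDivisors kA (FRes A N)]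
    (hdeg : ∀ Q : Place kA (FRes A N), Q.deg = 1) {Q Q' : Place kA (FRes A N)} :
    Q' ∈ badSet A q N hdeg Q ↔ (Q' = Q ∨ ∃ Q'' : Place kA (FRes A N),
      Rel A q (ES.jv N A Q'') (ES.jv N A Q) ∧ Rel A q (ES.jv N A Q') (ES.jv N A Q'')) := by
  rw [badSet, Set.Finite.mem_toFinset]
  exact Iff.rfl

/-! ### the hypotheses of `Glue.rigidity` -/

theorem disjoint_support_heckeDefect (hℓq : ℓ ≠ q)
    [HasPrincipalDivisors Qb (FBar N)] [HasPrincipalDivisors kA (FRes A N)]
    (hdeg : ∀ Q : Place kA (FRes A N), Q.deg = 1) (P P' : Place Qb (FBar N))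
    (hP' : placeReductionModL h P' ∉ badSet A q N hdeg (placeReductionModL h P)) :
    Disjoint (heckeDefect N q A (theDatum A N hℓN hA h) (Finsupp.single P' 1)).support
      (heckeDefect N q A (theDatum A N hℓN hA h) (Finsupp.single P 1)).support := by
  rw [Finset.disjoint_left]
  intro Q hQ' hQ
  apply hP'
  rw [mem_badSet]
  right
  have h1 := rel_of_mem_support_heckeDefect A q N hℓN hA h hℓq hdeg hQ
  have h2 := rel_of_mem_support_heckeDefect A q N hℓN hA h hℓq hdeg hQ'
  exact ⟨Q, h1, (rel_comm A q).mp h2⟩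

omit [HasPrincipalDivisors (IsLocalRing.ResidueField A) (FRes A (N * q))] in
include hℓN hA in
theorem exists_not_mem_badSet {γ : ℕ} (hF : IsCurveOfGenus Qb (FBar N) γ)
    [HasPrincipalDivisors Qb (FBar N)] [HasPrincipalDivisors kA (FRes A N)]
    (hdeg : ∀ Q : Place kA (FRes A N), Q.deg = 1) (Q : Place kA (FRes A N)) :
    ∃ P₀ : Place Qb (FBar N), placeReductionModL h P₀ ∉ badSet A q N hdeg Q := by
  classical
  have hdegpos : ∀ Q : Place kA (FRes A N), 0 < Q.deg := fun Q => by rw [hdeg Q]; exact one_pos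
  -- the finitely many forbidden values
  have hfin : {c : kA | ∃ Q' ∈ badSet A q N hdeg Q, ES.jv N A Q' = some c}.Finite := by
    have h1 : ((badSet A q N hdeg Q).image (ES.jv N A) : Set (Option kA)).Finite :=
      Finset.finite_toSet _
    refine (h1.preimage (Option.some_injective kA).injOn).subset ?_
    rintro c ⟨Q', hQ', hc⟩
    rw [Set.mem_preimage, Finset.mem_coe, Finset.mem_image]
    exact ⟨Q', hQ', hc⟩
  haveI : IsAlgClosed kA := Gink.isAlgClosed_residueField A
  haveI : Infinite kA := IsAlgClosed.instInfinite (K := kA)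
  obtain ⟨c, hc⟩ := hfin.exists_notMem
  obtain ⟨a, rfl⟩ := IsLocalRing.residue_surjective c
  -- a zero of `j - a`
  have hnc : ∀ c' : Qb, Gin0.jF N - algebraMap Qb (FBar N) (a : Qb) ≠ algebraMap Qb (FBar N) c' := by
    intro c' h0
    refine ES.jF_ne_const N ((a : Qb) + c') ?_
    rw [map_add, ← h0]; ring
  have hpos := B3.degree_zerosOf_pos_of_nonconst hF hnc
  have hne : zerosOf (K := Qb) (Gin0.jF N - algebraMap Qb (FBar N) (a : Qb)) ≠ 0 := by
    intro h0
    rw [h0, map_zero] at hpos
    exact lt_irrefl _ hpos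
  obtain ⟨P₀, hP₀⟩ := Finsupp.support_nonempty_iff.mpr hne
  have hP₀' : 0 < P₀.ord (Gin0.jF N - algebraMap Qb (FBar N) (a : Qb)) := by
    rw [Finsupp.mem_support_iff, zerosOf_apply] at hP₀
    by_contra hle
    push Not at hle
    exact hP₀ (max_eq_right hle)
  refine ⟨P₀, fun hmem => hc ⟨_, hmem, ?_⟩⟩
  exact ES.jv_r_of_mem N A hℓN hA h hdegpos a hP₀'

end SupportSec

end Fermat.Agent.S15lib.RedH
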