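/-
S15lib / RedH / Main (helper6).  Project E, block REDH: **Hecke operators preserve the kernel of
the reduction.**

* `heckeDefect_eq_zero` : `r_* ∘ T_q = T̄_q ∘ r_*` on ALL divisors of `FBar N` (`q` prime, `ℓ ∤ N q`):
  lead's `Glue.rigidity` applied to the Hecke defect (`RedH.Defect`: zero on principal divisors;
  `RedH.Support`: support control).
* `reductionModL_heckeOperatorBar_of_ne` : `red_A w = 0 → red_A (T_q w) = 0` for `q ≠ ℓ`;
* `reductionModL_heckeOperatorBar` : the same for every prime `q ∤ N` (`q = ℓ`: `RedH.Frob`).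
-/
import Mathlib
import Fermat.Agent.S15lib.RedH.Support
import Fermat.Agent.S15lib.RedH.Frob
import Fermat.Agent.S37lib.Glue.Rigid
import Fermat.Agent.S37lib.ES.Pic0

set_option autoImplicit false
set_option linter.style.haveILetI false
set_option linter.unusedSectionVars false

noncomputable section

namespace Fermat.Agent.S15lib.RedH

open AlgebraicCurve ModularCurve Fermat.Agent.S18lib Fermat.Agent.S37lib Fermat.Agent.S44lib

local notation "Qb" => AlgebraicClosure ℚ

variable (N : ℕ) [NeZero N] (A : ValuationSubring Qb) (q : ℕ) [Fact q.Prime] [NeZero q]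
  {ℓ : ℕ} [Fact ℓ.Prime]

local notation "kA" => IsLocalRing.ResidueField A

/-- **reduction commutes with the Hecke correspondence `T_q` on divisors** (`ℓ ∤ N q`) -/
theorem heckeDefect_eq_zero (hℓN : ¬ ℓ ∣ N) (hℓq : ℓ ≠ q) (hA : A.LiesOverPrime ℓ)
    (h : ReductionInputsModL A N)
    [HasPrincipalDivisors (IsLocalRing.ResidueField A) (FRes A (N * q))]
    (hdeg' : ∀ w : Place kA (FRes A (N * q)), w.deg = 1) :
    heckeDefect N q A (theDatum A N hℓN hA h) = 0 := by
  have hℓ : ℓ.Prime := Fact.out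
  have hq : q.Prime := Fact.out
  have hℓNq : ¬ ℓ ∣ N * q := by
    intro hd
    rcases (Nat.Prime.dvd_mul hℓ).mp hd with h1 | h1
    · exact hℓN h1
    · exact hℓq ((Nat.prime_dvd_prime_iff_eq hℓ hq).mp h1)
  obtain ⟨γ, hF, hFk⟩ := B3.exists_genus_level N A hℓN hA h
  haveI := hF.hasPrincipalDivisors
  haveI := hFk.hasPrincipalDivisors
  haveI : IsAlgClosed kA := Gink.isAlgClosed_residueField A
  haveI : Infinite kA := IsAlgClosed.instInfinite (K := kA)
  have hdeg : ∀ Q : Place kA (FRes A N), Q.deg = 1 := hFk.deg_eq_one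
  refine Glue.rigidity (theDatum A N hℓN hA h)
    (B3.datumOf_hasOrthonormalBases N A hℓN hA _ _) hF hFk
    (heckeDefect N q A (theDatum A N hℓN hA h)) ?_ (badSet A q N hdeg)
    (fun Q => (mem_badSet A q N hdeg).mpr (Or.inl rfl))
    (disjoint_support_heckeDefect A q N hℓN hA h hℓq hdeg)
    (exists_not_mem_badSet A q N hℓN hA h hF hdeg)
  intro f hf Df hDf
  exact heckeDefect_principal hℓN hℓNq hA hdeg' (theDatum A N hℓN hA h) rfl f hf Df hDf

/-- **(REDH), `q ≠ ℓ`**: `T_q` preserves the kernel of the reduction at `A ∣ ℓ`, `ℓ ∤ N q` -/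
theorem reductionModL_heckeOperatorBar_of_ne (hq : q.Prime) (hℓN : ¬ ℓ ∣ N) (hℓq : ℓ ≠ q)
    (hA : A.LiesOverPrime ℓ) (w : JZero N) (hw : reductionModL A N w = 0) :
    reductionModL A N (heckeOperatorBar N ⟨q, hq⟩ w) = 0 := by
  have hℓ : ℓ.Prime := Fact.out
  have hℓNq : ¬ ℓ ∣ N * q := by
    intro hd
    rcases (Nat.Prime.dvd_mul hℓ).mp hd with h1 | h1
    · exact hℓN h1
    · exact hℓq ((Nat.prime_dvd_prime_iff_eq hℓ hq).mp h1)
  have h : ReductionInputsModL A N := B3.reductionInputsModL N A hℓN hA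
  obtain ⟨γ, hF, hFk⟩ := B3.exists_genus_level N A hℓN hA h
  obtain ⟨γ', hFk'⟩ := B3.exists_isCurveOfGenus_FRes A (N * q) hℓNq hA
  haveI := hF.hasPrincipalDivisors
  haveI := hFk.hasPrincipalDivisors
  haveI := hFk'.hasPrincipalDivisors
  haveI := HeckeInst.hasPrincipalDivisors_FB (N * q)
  have hdeg' : ∀ w : Place kA (FRes A (N * q)), w.deg = 1 := hFk'.deg_eq_one
  have hzero := heckeDefect_eq_zero N A q hℓN hℓq hA h hdeg'
  obtain ⟨E, rfl⟩ := Pic0.mk_surjective w
  -- the reduction of `E` is principal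
  have h1 := reductionModL_mk h E
  rw [hw] at h1
  have hprin : Finsupp.mapDomain (placeReductionModL h) (E : Divisor Qb (FBar N)) ∈
      Divisor.principal (K := kA) (F := FRes A N) := by
    have h2 := (QuotientAddGroup.eq_zero_iff _).mp h1.symm
    exact h2
  obtain ⟨φ, hφ, hEφ⟩ := mem_principal_iff.mp hprin
  -- the reduction of `T_q E`
  have h0 := ES.heckeOperatorBar_mk N hq E
  have h2 := reductionModL_mk h (Pic0.degZeroCorrespondence (heckeBetaBar Qb N q)
    (heckeAlphaBar Qb N q) (HeckeInst.heckeBetaBarIntegral N q) (HeckeInst.heckeAlphaBarIntegral N q)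
    (HeckeInst.fundamentalIdentityAlong_beta N q) E)
  refine (congrArg (fun x => reductionModL A N x) h0).trans ?_
  refine h2.trans ?_
  refine (QuotientAddGroup.eq_zero_iff _).mpr ?_
  show Finsupp.mapDomain (placeReductionModL h)
      (Divisor.correspondence (heckeBetaBar Qb N q) (heckeAlphaBar Qb N q)
        (HeckeInst.heckeBetaBarIntegral N q) (HeckeInst.heckeAlphaBarIntegral N q)
        (E : Divisor Qb (FBar N))) ∈ Divisor.principal (K := kA) (F := FRes A N)
  have hE := (heckeDefect_eq_zero_iff N q A (theDatum A N hℓN hA h)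
    (E : Divisor Qb (FBar N))).mp (by rw [hzero]; rfl)
  have hE' : Finsupp.mapDomain (placeReductionModL h)
      (Divisor.correspondence (heckeBetaBar Qb N q) (heckeAlphaBar Qb N q)
        (HeckeInst.heckeBetaBarIntegral N q) (HeckeInst.heckeAlphaBarIntegral N q)
        (E : Divisor Qb (FBar N))) =
      Q4.heckeDivK A N q (Finsupp.mapDomain (placeReductionModL h) (E : Divisor Qb (FBar N))) := hE
  rw [hE', hEφ, heckeDivK_divOf hA hℓNq hdeg' hφ]
  exact divOf_mem_principal
    (ES.normAlong_ne_zero _ (Q4.finiteAlong_alphaK A N q) ((map_ne_zero _).mpr hφ))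

/-- **(REDH)**: for every prime `q` and every place `A ∣ ℓ`, `ℓ ∤ N`, `q ≠ ℓ` or `q = ℓ`, the Hecke
operator `T_q` (the prelude's `heckeOperatorBar`) preserves the kernel of `reductionModL A N`. -/
theorem reductionModL_heckeOperatorBar (hq : q.Prime) (hℓN : ¬ ℓ ∣ N)
    (hA : A.LiesOverPrime ℓ) (w : JZero N) (hw : reductionModL A N w = 0) :
    reductionModL A N (heckeOperatorBar N ⟨q, hq⟩ w) = 0 := by
  by_cases hℓq : ℓ = q
  · subst hℓq
    exact reductionModL_heckeOperatorBar_self N A hq hℓN hA w hw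
  · exact reductionModL_heckeOperatorBar_of_ne N A q hq hℓN hℓq hA w hw

end Fermat.Agent.S15lib.RedH
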