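/-
S15lib / RedH / Stmt (helper6).  Project E, block REDH: **`RedHeckeStmt` of `S15lib/Iface.lean` is
PROVED.**
-/
import Mathlib
import Fermat.Agent.S15lib.Iface
import Fermat.Agent.S15lib.RedH.Main
import Fermat.Agent.S29lib.H.TJ

set_option autoImplicit false
set_option linter.style.haveILetI false

noncomputable section

namespace Fermat.Agent.S15lib.RedH

open AlgebraicCurve ModularCurve

/-- **(REDH)**: Hecke operators preserve the kernel of reduction. -/
theorem redHeckeStmt : Fermat.Agent.S15lib.RedHeckeStmt := by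
  intro p hp ℓ hℓ hℓp A hA q hq
  haveI : NeZero p := ⟨hp.ne_zero⟩
  intro z hz
  haveI : Fact ℓ.Prime := ⟨hℓ⟩
  haveI : Fact (q : ℕ).Prime := ⟨q.2⟩
  haveI : NeZero (q : ℕ) := ⟨q.2.ne_zero⟩
  have hqp : ¬ (q : ℕ) ∣ p := fun h => hq ((Nat.prime_dvd_prime_iff_eq q.2 hp).mp h)
  have hℓp' : ¬ ℓ ∣ p := fun h => hℓp ((Nat.prime_dvd_prime_iff_eq hℓ hp).mp h)
  show reductionModL A p (Fermat.Agent.S29lib.H.TJ p q z) = 0
  rw [Fermat.Agent.S29lib.H.TJ_good p q hqp z]
  exact reductionModL_heckeOperatorBar p A (q : ℕ) q.2 hℓp' hA z hz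

end Fermat.Agent.S15lib.RedH
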